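import Mathlib
import Fermat.Agent.LT.T6.Spec
import Fermat.Agent.LT.T6.H8.Unimod
import Fermat.Agent.LT.T2.H729.ThetaMeas
import Fermat.Agent.LT.T2.H8.LocCpxCore
import Fermat.Agent.LT.T7.H305.MatchSpec

/-!
# Row LT, tower T7, ASSET ARCH-COMM (helper910): the Gelfand pair `(GL₂(ℂ), U(2))`

OFF-MAIN.  No hole, nothing assumed.  ADDITIVE (new names only, suffix `910`).  Imports:
Mathlib, `T6/Spec` (`T6.convInt`), `T7/H305/MatchSpec` (`convL305`, `conjGL305`) and three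
Mathlib-only assets, byte-identical copies of the master tree: `T6/H8/Unimod.lean` (helper8:
`GL₂(ℂ)` is unimodular), `T2/H729/ThetaMeas.lean` (helper729: an involutive anti-automorphism
preserves Haar measure), `T2/H8/LocCpxCore.lean` (helper8: `Mᵀ = A M B`, `A, B` unitary).

## Why

The clause `arch` of `H305.LocHyp305` / `H893.LocHyp893` asks
`F v = convL305 μc (fun j => Φ (w j)) (l - 1)` for ALL enumerations `w` of the places over `v`,
and the calculus of pure tensors (`H893.ProdMtCb`) needs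
`convL305 (Φ¹ ∘ w) ⋆ convL305 (Φ² ∘ w) = convL305 ((Φ¹ ⋆ Φ²) ∘ w)`.  Both are the commutativity
of the convolution algebra of the bi-`U(2)`-invariant functions (`H893.ArchOk893`).
-/

set_option autoImplicit false
set_option maxHeartbeats 400000

open MeasureTheory Matrix
open scoped Pointwise

noncomputable section

namespace Fermat.Agent.LT.T7.H910

open Fermat.Agent.LT

/-- `Φ` is bi-invariant under `U(2)` (the form of `H893.ArchOk893`). -/
def IsBiU2_910 (Φ : GL (Fin 2) ℂ → ℂ) : Prop :=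
  ∀ k₁ k₂ g : GL (Fin 2) ℂ,
    (k₁ : Matrix (Fin 2) (Fin 2) ℂ) * (k₁ : Matrix (Fin 2) (Fin 2) ℂ).conjTranspose = 1 →
    (k₂ : Matrix (Fin 2) (Fin 2) ℂ) * (k₂ : Matrix (Fin 2) (Fin 2) ℂ).conjTranspose = 1 →
    Φ (k₁ * g * k₂) = Φ g

theorem IsBiU2_910.left {Φ : GL (Fin 2) ℂ → ℂ} (h : IsBiU2_910 Φ) (k g : GL (Fin 2) ℂ)
    (hk : (k : Matrix (Fin 2) (Fin 2) ℂ) * (k : Matrix (Fin 2) (Fin 2) ℂ).conjTranspose = 1) :
    Φ (k * g) = Φ g := by
  have := h k 1 g hk (by simp)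
  simpa using this

theorem IsBiU2_910.right {Φ : GL (Fin 2) ℂ → ℂ} (h : IsBiU2_910 Φ) (k g : GL (Fin 2) ℂ)
    (hk : (k : Matrix (Fin 2) (Fin 2) ℂ) * (k : Matrix (Fin 2) (Fin 2) ℂ).conjTranspose = 1) :
    Φ (g * k) = Φ g := by
  have := h 1 k g (by simp) hk
  simpa using this

/-! ## 1. Transposition -/

/-- Transposition on `GL₂(ℂ)`. -/
def trGL910 (g : GL (Fin 2) ℂ) : GL (Fin 2) ℂ :=
  ⟨(g : Matrix (Fin 2) (Fin 2) ℂ)ᵀ, ((g⁻¹ : GL (Fin 2) ℂ) : Matrix (Fin 2) (Fin 2) ℂ)ᵀ,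
    by rw [← Matrix.transpose_mul, Units.inv_mul, Matrix.transpose_one],
    by rw [← Matrix.transpose_mul, Units.mul_inv, Matrix.transpose_one]⟩

@[simp] theorem trGL910_val (g : GL (Fin 2) ℂ) :
    ((trGL910 g : GL (Fin 2) ℂ) : Matrix (Fin 2) (Fin 2) ℂ)
      = (g : Matrix (Fin 2) (Fin 2) ℂ)ᵀ := rfl

theorem trGL910_mul (g h : GL (Fin 2) ℂ) : trGL910 (g * h) = trGL910 h * trGL910 g := by
  apply Units.ext
  simp [Matrix.transpose_mul]

theorem trGL910_trGL910 (g : GL (Fin 2) ℂ) : trGL910 (trGL910 g) = g := by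
  apply Units.ext
  simp

theorem trGL910_inv (g : GL (Fin 2) ℂ) : trGL910 g⁻¹ = (trGL910 g)⁻¹ := by
  apply eq_inv_of_mul_eq_one_left
  rw [← trGL910_mul, mul_inv_cancel]
  apply Units.ext
  simp

theorem continuous_trGL910 : Continuous trGL910 := by
  rw [Units.continuous_iff]
  refine ⟨?_, ?_⟩
  · exact (Units.continuous_val).matrix_transpose
  · have h : (fun g : GL (Fin 2) ℂ => ((trGL910 g)⁻¹ : GL (Fin 2) ℂ).val)
        = fun g => ((g⁻¹ : GL (Fin 2) ℂ) : Matrix (Fin 2) (Fin 2) ℂ)ᵀ := by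
      funext g
      rw [← trGL910_inv]
      rfl
    rw [h]
    exact (Units.continuous_val.comp continuous_inv).matrix_transpose

/-- A unitary matrix as an element of `GL₂(ℂ)`. -/
def unitGL910 (A : Matrix (Fin 2) (Fin 2) ℂ) (hA : A * Aᴴ = 1) : GL (Fin 2) ℂ :=
  ⟨A, Aᴴ, hA, mul_eq_one_comm.mp hA⟩

/-- **Bi-`U(2)`-invariant functions are invariant under transposition** (Cartan
decomposition). -/
theorem IsBiU2_910.tr {Φ : GL (Fin 2) ℂ → ℂ} (h : IsBiU2_910 Φ) (g : GL (Fin 2) ℂ) :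
    Φ (trGL910 g) = Φ g := by
  have hdet : (g : Matrix (Fin 2) (Fin 2) ℂ).det ≠ 0 := by
    have := (Matrix.isUnit_iff_isUnit_det (g : Matrix (Fin 2) (Fin 2) ℂ)).mp g.isUnit
    exact this.ne_zero
  obtain ⟨A, B, hA, hB, hAB⟩ := T2.H8.exists_unitary_transpose8 (g : Matrix (Fin 2) (Fin 2) ℂ) hdet
  have e : trGL910 g = unitGL910 A hA * g * unitGL910 B hB := by
    apply Units.ext
    simpa [unitGL910] using hAB
  rw [e]
  exact h _ _ _ hA hB

/-! ## 2. Haar measure -/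

section Meas

variable [MeasurableSpace (GL (Fin 2) ℂ)] [BorelSpace (GL (Fin 2) ℂ)]
  (μ : Measure (GL (Fin 2) ℂ)) [μ.IsHaarMeasure]

theorem isMulRightInvariant910 : μ.IsMulRightInvariant :=
  ⟨(T6.H8.rightInv_GL2C8 μ).1⟩

theorem isInvInvariant910 : μ.IsInvInvariant :=
  ⟨(T6.H8.rightInv_GL2C8 μ).2⟩

/-- Transposition preserves every Haar measure of `GL₂(ℂ)`. -/
theorem measurePreserving_trGL910 : MeasurePreserving trGL910 μ μ := by
  haveI := T6.H8.locallyCompactSpace_GL2C8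
  haveI := T6.H8.secondCountableTopology_GL2C8
  haveI := isMulRightInvariant910 μ
  exact T2.H729.measurePreserving_antiInvolution729 μ trGL910 continuous_trGL910
    trGL910_trGL910 trGL910_mul

/-- Transposition as a measurable equivalence. -/
def trEquiv910 : GL (Fin 2) ℂ ≃ᵐ GL (Fin 2) ℂ where
  toFun := trGL910
  invFun := trGL910
  left_inv := trGL910_trGL910
  right_inv := trGL910_trGL910
  measurable_toFun := continuous_trGL910.measurable
  measurable_invFun := continuous_trGL910.measurable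

theorem integral_comp_trGL910 (F : GL (Fin 2) ℂ → ℂ) :
    ∫ y, F (trGL910 y) ∂μ = ∫ y, F y ∂μ :=
  (measurePreserving_trGL910 μ).integral_comp' (f := trEquiv910) F

/-- `z ↦ z⁻¹ * a` preserves every Haar measure of `GL₂(ℂ)`. -/
theorem integral_comp_inv_mul910 (a : GL (Fin 2) ℂ) (F : GL (Fin 2) ℂ → ℂ) :
    ∫ z, F (z⁻¹ * a) ∂μ = ∫ y, F y ∂μ := by
  haveI := isMulRightInvariant910 μ
  haveI := isInvInvariant910 μ
  have h1 : ∫ z, F (z⁻¹ * a) ∂μ = ∫ z, F (z * a) ∂μ := by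
    have := integral_inv_eq_self (fun z => F (z * a)) μ
    simpa using this
  rw [h1, integral_mul_right_eq_self]

end Meas

/-! ## 3. The convolution of bi-invariant functions -/

/-- The definition of `T6.convInt` (by `rfl`: no equation lemma of `T6/Spec` is realised
here). -/
theorem convInt_apply910 [MeasurableSpace (GL (Fin 2) ℂ)] (μ : Measure (GL (Fin 2) ℂ))
    (Φ Ψ : GL (Fin 2) ℂ → ℂ) (x : GL (Fin 2) ℂ) :
    T6.convInt μ Φ Ψ x = ∫ y, Φ y * Ψ (y⁻¹ * x) ∂μ := rfl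

section Conv

variable [MeasurableSpace (GL (Fin 2) ℂ)] [BorelSpace (GL (Fin 2) ℂ)]
  (μ : Measure (GL (Fin 2) ℂ)) [μ.IsHaarMeasure]

/-- The convolution of bi-`U(2)`-invariant functions is bi-`U(2)`-invariant. -/
theorem isBiU2_convInt910 {Φ Ψ : GL (Fin 2) ℂ → ℂ} (hΦ : IsBiU2_910 Φ) (hΨ : IsBiU2_910 Ψ) :
    IsBiU2_910 (T6.convInt μ Φ Ψ) := by
  intro k₁ k₂ g hk₁ hk₂
  rw [convInt_apply910, convInt_apply910]
  have h1 : ∀ y : GL (Fin 2) ℂ, Φ y * Ψ (y⁻¹ * (k₁ * g * k₂)) = Φ y * Ψ (y⁻¹ * (k₁ * g)) := by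
    intro y
    have : y⁻¹ * (k₁ * g * k₂) = y⁻¹ * (k₁ * g) * k₂ := by group
    rw [this, hΨ.right _ _ hk₂]
  simp_rw [h1]
  have h2 := integral_mul_left_eq_self (μ := μ) (fun y => Φ y * Ψ (y⁻¹ * (k₁ * g))) k₁
  rw [← h2]
  refine integral_congr_ae (Filter.Eventually.of_forall fun y => ?_)
  have : (k₁ * y)⁻¹ * (k₁ * g) = y⁻¹ * g := by group
  simp only [this, hΦ.left _ _ hk₁]

/-- **GELFAND**: the convolution of bi-`U(2)`-invariant functions on `GL₂(ℂ)` is
commutative (no integrability hypothesis). -/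
theorem convInt_comm_gen910 {Φ Ψ : GL (Fin 2) ℂ → ℂ} (hΦ : IsBiU2_910 Φ) (hΨ : IsBiU2_910 Ψ)
    (x : GL (Fin 2) ℂ) : T6.convInt μ Φ Ψ x = T6.convInt μ Ψ Φ x := by
  have hA : T6.convInt μ Φ Ψ x = T6.convInt μ Ψ Φ (trGL910 x) := by
    rw [convInt_apply910, convInt_apply910]
    have e1 : ∀ y : GL (Fin 2) ℂ,
        Φ y * Ψ (y⁻¹ * x) = (fun y' => Φ y' * Ψ (trGL910 x * y'⁻¹)) (trGL910 y) := by
      intro y
      simp only
      rw [hΦ.tr, ← trGL910_inv, ← trGL910_mul, hΨ.tr]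
    simp_rw [e1]
    rw [integral_comp_trGL910 μ (fun y' => Φ y' * Ψ (trGL910 x * y'⁻¹))]
    rw [← integral_comp_inv_mul910 μ (trGL910 x) (fun y' => Φ y' * Ψ (trGL910 x * y'⁻¹))]
    refine integral_congr_ae (Filter.Eventually.of_forall fun z => ?_)
    have : trGL910 x * (z⁻¹ * trGL910 x)⁻¹ = z := by group
    simp only [this, mul_comm]
  rw [hA, (isBiU2_convInt910 μ hΨ hΦ).tr]

end Conv

/-! ## 4. Continuity, support and associativity of the convolution -/

section Top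

variable [MeasurableSpace (GL (Fin 2) ℂ)] [BorelSpace (GL (Fin 2) ℂ)]
  (μ : Measure (GL (Fin 2) ℂ)) [μ.IsHaarMeasure]

theorem convInt_eq_zero_of910 {Φ Ψ : GL (Fin 2) ℂ → ℂ} {x : GL (Fin 2) ℂ}
    (h : x ∉ tsupport Φ * tsupport Ψ) : T6.convInt μ Φ Ψ x = 0 := by
  rw [convInt_apply910]
  have h0 : ∀ y : GL (Fin 2) ℂ, Φ y * Ψ (y⁻¹ * x) = 0 := by
    intro y
    by_contra hne
    have h1 : Φ y ≠ 0 := left_ne_zero_of_mul hne
    have h2 : Ψ (y⁻¹ * x) ≠ 0 := right_ne_zero_of_mul hne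
    apply h
    exact Set.mem_mul.mpr ⟨y, subset_tsupport _ h1, y⁻¹ * x, subset_tsupport _ h2, by group⟩
  simp [h0]

theorem hasCompactSupport_convInt910 {Φ Ψ : GL (Fin 2) ℂ → ℂ} (hΦ : HasCompactSupport Φ)
    (hΨ : HasCompactSupport Ψ) : HasCompactSupport (T6.convInt μ Φ Ψ) :=
  HasCompactSupport.intro (IsCompact.mul hΦ hΨ) (fun _ hx => convInt_eq_zero_of910 μ hx)

theorem continuous_convInt910 {Φ Ψ : GL (Fin 2) ℂ → ℂ} (hΦ : Continuous Φ)
    (hΦc : HasCompactSupport Φ) (hΨ : Continuous Ψ) : Continuous (T6.convInt μ Φ Ψ) := by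
  have := T6.H8.locallyCompactSpace_GL2C8
  have := T6.H8.secondCountableTopology_GL2C8
  have h1 : T6.convInt μ Φ Ψ = fun x => ∫ y in tsupport Φ, Φ y * Ψ (y⁻¹ * x) ∂μ := by
    funext x
    rw [convInt_apply910]
    symm
    apply setIntegral_eq_integral_of_forall_compl_eq_zero
    intro y hy
    rw [image_eq_zero_of_notMem_tsupport hy, zero_mul]
  rw [h1]
  have hc : Continuous (Function.uncurry fun (x y : GL (Fin 2) ℂ) => Φ y * Ψ (y⁻¹ * x)) :=
    (hΦ.comp continuous_snd).mul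
      (hΨ.comp ((continuous_inv.comp continuous_snd).mul continuous_fst))
  exact continuous_parametric_integral_of_continuous hc hΦc

/-- **ASSOCIATIVITY** of the convolution of continuous functions with compact support. -/
theorem convInt_assoc_gen910 {Φ Ψ Χ : GL (Fin 2) ℂ → ℂ} (hΦ : Continuous Φ)
    (hΦc : HasCompactSupport Φ) (hΨ : Continuous Ψ) (hΨc : HasCompactSupport Ψ)
    (hΧ : Continuous Χ) (x : GL (Fin 2) ℂ) :
    T6.convInt μ (T6.convInt μ Φ Ψ) Χ x = T6.convInt μ Φ (T6.convInt μ Ψ Χ) x := by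
  have := T6.H8.locallyCompactSpace_GL2C8
  have := T6.H8.secondCountableTopology_GL2C8
  have hL : T6.convInt μ (T6.convInt μ Φ Ψ) Χ x
      = ∫ y, ∫ z, Φ z * Ψ (z⁻¹ * y) * Χ (y⁻¹ * x) ∂μ ∂μ := by
    rw [convInt_apply910]
    refine integral_congr_ae (Filter.Eventually.of_forall fun y => ?_)
    simp only [convInt_apply910]
    exact (integral_mul_const _ _).symm
  have hR : T6.convInt μ Φ (T6.convInt μ Ψ Χ) x
      = ∫ z, ∫ y, Φ z * Ψ (z⁻¹ * y) * Χ (y⁻¹ * x) ∂μ ∂μ := by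
    rw [convInt_apply910]
    refine integral_congr_ae (Filter.Eventually.of_forall fun z => ?_)
    simp only [convInt_apply910]
    rw [← integral_const_mul]
    rw [← integral_mul_left_eq_self (μ := μ) (fun y => Φ z * Ψ (z⁻¹ * y) * Χ (y⁻¹ * x)) z]
    refine integral_congr_ae (Filter.Eventually.of_forall fun y => ?_)
    have e1 : z⁻¹ * (z * y) = y := by group
    have e2 : (z * y)⁻¹ * x = y⁻¹ * (z⁻¹ * x) := by group
    simp only [e1, e2, mul_assoc]
  rw [hL, hR]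
  have hcont : Continuous (Function.uncurry fun (y z : GL (Fin 2) ℂ) =>
      Φ z * Ψ (z⁻¹ * y) * Χ (y⁻¹ * x)) :=
    ((hΦ.comp continuous_snd).mul
      (hΨ.comp ((continuous_inv.comp continuous_snd).mul continuous_fst))).mul
      (hΧ.comp ((continuous_inv.comp continuous_fst).mul continuous_const))
  have hsupp : HasCompactSupport (Function.uncurry fun (y z : GL (Fin 2) ℂ) =>
      Φ z * Ψ (z⁻¹ * y) * Χ (y⁻¹ * x)) := by
    refine HasCompactSupport.intro ((IsCompact.mul hΦc hΨc).prod hΦc) ?_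
    rintro ⟨y, z⟩ hyz
    simp only [Function.uncurry_apply_pair]
    by_contra hne
    have h12 : Φ z * Ψ (z⁻¹ * y) ≠ 0 := left_ne_zero_of_mul hne
    have h1 : Φ z ≠ 0 := left_ne_zero_of_mul h12
    have h2 : Ψ (z⁻¹ * y) ≠ 0 := right_ne_zero_of_mul h12
    apply hyz
    refine Set.mk_mem_prod ?_ (subset_tsupport _ h1)
    exact Set.mem_mul.mpr ⟨z, subset_tsupport _ h1, z⁻¹ * y, subset_tsupport _ h2, by group⟩
  exact integral_integral_swap (hcont.integrable_of_hasCompactSupport hsupp)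

end Top

/-! ## 5. Complex conjugation -/

theorem conjGL305_val910 (g : GL (Fin 2) ℂ) :
    ((H305.conjGL305 g : GL (Fin 2) ℂ) : Matrix (Fin 2) (Fin 2) ℂ)
      = (g : Matrix (Fin 2) (Fin 2) ℂ).map (starRingEnd ℂ) := rfl

theorem conjGL305_conjGL305_910 (g : GL (Fin 2) ℂ) :
    H305.conjGL305 (H305.conjGL305 g) = g := by
  apply Units.ext
  ext i j
  simp [conjGL305_val910]

theorem conjGL305_trGL910 (g : GL (Fin 2) ℂ) :
    H305.conjGL305 (trGL910 g) = trGL910 (H305.conjGL305 g) := by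
  apply Units.ext
  ext i j
  simp [conjGL305_val910]

theorem continuous_conjGL305_910 : Continuous (fun g : GL (Fin 2) ℂ => H305.conjGL305 g) := by
  rw [Units.continuous_iff]
  refine ⟨?_, ?_⟩
  · exact Continuous.matrix_map Units.continuous_val Complex.continuous_conj
  · have h : (fun g : GL (Fin 2) ℂ => ((H305.conjGL305 g)⁻¹ : GL (Fin 2) ℂ).val)
        = fun g => ((g⁻¹ : GL (Fin 2) ℂ) : Matrix (Fin 2) (Fin 2) ℂ).map (starRingEnd ℂ) := by
      funext g
      rw [← map_inv]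
      rfl
    rw [h]
    exact Continuous.matrix_map (Units.continuous_val.comp continuous_inv)
      Complex.continuous_conj

section ConjMeas

variable [MeasurableSpace (GL (Fin 2) ℂ)] [BorelSpace (GL (Fin 2) ℂ)]
  (μ : Measure (GL (Fin 2) ℂ)) [μ.IsHaarMeasure]

/-- Complex conjugation preserves every Haar measure of `GL₂(ℂ)`. -/
theorem measurePreserving_conjGL910 :
    MeasurePreserving (fun g : GL (Fin 2) ℂ => H305.conjGL305 g) μ μ := by
  have := T6.H8.locallyCompactSpace_GL2C8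
  have := T6.H8.secondCountableTopology_GL2C8
  have := isMulRightInvariant910 μ
  have h2 : MeasurePreserving (fun g : GL (Fin 2) ℂ => H305.conjGL305 (trGL910 g)) μ μ := by
    refine T2.H729.measurePreserving_antiInvolution729 μ _
      (continuous_conjGL305_910.comp continuous_trGL910) ?_ ?_
    · intro g
      rw [conjGL305_trGL910, conjGL305_conjGL305_910, trGL910_trGL910]
    · intro g h
      rw [trGL910_mul, map_mul]
  have h3 := h2.comp (measurePreserving_trGL910 μ)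
  have e : (fun g : GL (Fin 2) ℂ => H305.conjGL305 (trGL910 g)) ∘ trGL910
      = fun g : GL (Fin 2) ℂ => H305.conjGL305 g := by
    funext g
    simp only [Function.comp_apply, trGL910_trGL910]
  rwa [e] at h3

/-- Complex conjugation as a measurable equivalence. -/
def conjEquiv910 : GL (Fin 2) ℂ ≃ᵐ GL (Fin 2) ℂ where
  toFun := fun g => H305.conjGL305 g
  invFun := fun g => H305.conjGL305 g
  left_inv := conjGL305_conjGL305_910
  right_inv := conjGL305_conjGL305_910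
  measurable_toFun := continuous_conjGL305_910.measurable
  measurable_invFun := continuous_conjGL305_910.measurable

theorem integral_comp_conjGL910 (F : GL (Fin 2) ℂ → ℂ) :
    ∫ y, F (H305.conjGL305 y) ∂μ = ∫ y, F y ∂μ :=
  (measurePreserving_conjGL910 μ).integral_comp' (f := conjEquiv910) F

/-- The convolution of conjugation invariant functions is conjugation invariant. -/
theorem conjInv_convInt_gen910 {Φ Ψ : GL (Fin 2) ℂ → ℂ}
    (hΦ : ∀ g : GL (Fin 2) ℂ, Φ (H305.conjGL305 g) = Φ g)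
    (hΨ : ∀ g : GL (Fin 2) ℂ, Ψ (H305.conjGL305 g) = Ψ g) (g : GL (Fin 2) ℂ) :
    T6.convInt μ Φ Ψ (H305.conjGL305 g) = T6.convInt μ Φ Ψ g := by
  rw [convInt_apply910, convInt_apply910]
  rw [← integral_comp_conjGL910 μ (fun y => Φ y * Ψ (y⁻¹ * H305.conjGL305 g))]
  refine integral_congr_ae (Filter.Eventually.of_forall fun y => ?_)
  simp only
  rw [hΦ, ← map_inv, ← map_mul, hΨ]

end ConjMeas

/-! ## 6. The class of the archimedean components and its convolution algebra -/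

/-- The class of the archimedean components: continuous, compact support, bi-invariant under
`U(2)`. -/
structure IsArchFn910 (Φ : GL (Fin 2) ℂ → ℂ) : Prop where
  cont : Continuous Φ
  supp : HasCompactSupport Φ
  biInv : IsBiU2_910 Φ

theorem isArchFn_zero910 : IsArchFn910 (fun _ => (0 : ℂ)) :=
  ⟨continuous_const, HasCompactSupport.zero, fun _ _ _ _ _ => rfl⟩

section Alg

variable [MeasurableSpace (GL (Fin 2) ℂ)] [BorelSpace (GL (Fin 2) ℂ)]
  (μ : Measure (GL (Fin 2) ℂ)) [μ.IsHaarMeasure]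

theorem isArchFn_convInt_gen910 {Φ Ψ : GL (Fin 2) ℂ → ℂ} (hΦ : IsArchFn910 Φ)
    (hΨ : IsArchFn910 Ψ) : IsArchFn910 (T6.convInt μ Φ Ψ) :=
  ⟨continuous_convInt910 μ hΦ.cont hΦ.supp hΨ.cont,
    hasCompactSupport_convInt910 μ hΦ.supp hΨ.supp, isBiU2_convInt910 μ hΦ.biInv hΨ.biInv⟩

end Alg

/-- The convolution algebra of the archimedean components for the Haar measure `μ`. -/
structure ArchAlg910 [MeasurableSpace (GL (Fin 2) ℂ)] (μ : Measure (GL (Fin 2) ℂ)) : Type where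
  fn : GL (Fin 2) ℂ → ℂ
  isArch : IsArchFn910 fn

theorem ArchAlg910.ext' [MeasurableSpace (GL (Fin 2) ℂ)] {μ : Measure (GL (Fin 2) ℂ)}
    {a b : ArchAlg910 μ} (h : a.fn = b.fn) : a = b := by
  cases a; cases b; cases h; rfl

section Alg2

variable [MeasurableSpace (GL (Fin 2) ℂ)] [BorelSpace (GL (Fin 2) ℂ)]
  (μ : Measure (GL (Fin 2) ℂ)) [μ.IsHaarMeasure]

instance instMulArchAlg910 : Mul (ArchAlg910 μ) :=
  ⟨fun a b => ⟨T6.convInt μ a.fn b.fn, isArchFn_convInt_gen910 μ a.isArch b.isArch⟩⟩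

theorem ArchAlg910.mul_fn (a b : ArchAlg910 μ) : (a * b).fn = T6.convInt μ a.fn b.fn := rfl

instance instCommSemigroupArchAlg910 : CommSemigroup (ArchAlg910 μ) where
  mul_assoc a b c := ArchAlg910.ext' (funext fun x =>
    convInt_assoc_gen910 μ a.isArch.cont a.isArch.supp b.isArch.cont b.isArch.supp
      c.isArch.cont x)
  mul_comm a b := ArchAlg910.ext' (funext fun x =>
    convInt_comm_gen910 μ a.isArch.biInv b.isArch.biInv x)

/-- The left nested product in the algebra. -/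
def cL910 (a : ℕ → ArchAlg910 μ) : ℕ → ArchAlg910 μ
  | 0 => a 0
  | (n + 1) => cL910 a n * a (n + 1)

theorem cL910_zero (a : ℕ → ArchAlg910 μ) : cL910 μ a 0 = a 0 := rfl

theorem cL910_succ (a : ℕ → ArchAlg910 μ) (n : ℕ) :
    cL910 μ a (n + 1) = cL910 μ a n * a (n + 1) := rfl

theorem coe_cL910 (a : ℕ → ArchAlg910 μ) (n : ℕ) :
    ((cL910 μ a n : ArchAlg910 μ) : WithOne (ArchAlg910 μ))
      = ∏ j ∈ Finset.range (n + 1), ((a j : ArchAlg910 μ) : WithOne (ArchAlg910 μ)) := by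
  induction n with
  | zero => rw [cL910_zero, zero_add, Finset.prod_range_one]
  | succ n ih => rw [cL910_succ, WithOne.coe_mul, ih, Finset.prod_range_succ _ (n + 1)]

end Alg2

/-! ## 7. Left nested convolution products (generic measurable structure) -/

/-- The left nested convolution product `Φ 0 ⋆ Φ 1 ⋆ ⋯ ⋆ Φ n` (the shape of
`H305.convL305`, for any measurable structure). -/
def convLg910 [MeasurableSpace (GL (Fin 2) ℂ)] (μ : Measure (GL (Fin 2) ℂ))
    (Φ : ℕ → GL (Fin 2) ℂ → ℂ) : ℕ → GL (Fin 2) ℂ → ℂ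
  | 0 => Φ 0
  | (n + 1) => T6.convInt μ (convLg910 μ Φ n) (Φ (n + 1))

theorem convLg910_zero [MeasurableSpace (GL (Fin 2) ℂ)] (μ : Measure (GL (Fin 2) ℂ))
    (Φ : ℕ → GL (Fin 2) ℂ → ℂ) : convLg910 μ Φ 0 = Φ 0 := rfl

theorem convLg910_succ [MeasurableSpace (GL (Fin 2) ℂ)] (μ : Measure (GL (Fin 2) ℂ))
    (Φ : ℕ → GL (Fin 2) ℂ → ℂ) (n : ℕ) :
    convLg910 μ Φ (n + 1) = T6.convInt μ (convLg910 μ Φ n) (Φ (n + 1)) := rfl

theorem convLg910_congr [MeasurableSpace (GL (Fin 2) ℂ)] (μ : Measure (GL (Fin 2) ℂ))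
    {Φ Φ' : ℕ → GL (Fin 2) ℂ → ℂ} (n : ℕ) (h : ∀ j ≤ n, Φ j = Φ' j) :
    convLg910 μ Φ n = convLg910 μ Φ' n := by
  induction n with
  | zero => rw [convLg910_zero, convLg910_zero, h 0 le_rfl]
  | succ n ih =>
    rw [convLg910_succ, convLg910_succ, ih (fun j hj => h j (Nat.le_succ_of_le hj)),
      h (n + 1) le_rfl]

open Classical in
/-- A function as an element of the algebra (`0` outside the class). -/
def mkA910 [MeasurableSpace (GL (Fin 2) ℂ)] (μ : Measure (GL (Fin 2) ℂ))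
    (Φ : GL (Fin 2) ℂ → ℂ) : ArchAlg910 μ :=
  if h : IsArchFn910 Φ then ⟨Φ, h⟩ else ⟨fun _ => 0, isArchFn_zero910⟩

theorem mkA910_fn [MeasurableSpace (GL (Fin 2) ℂ)] (μ : Measure (GL (Fin 2) ℂ))
    {Φ : GL (Fin 2) ℂ → ℂ} (h : IsArchFn910 Φ) : (mkA910 μ Φ).fn = Φ := by
  rw [mkA910, dif_pos h]

section Gen

variable [MeasurableSpace (GL (Fin 2) ℂ)] [BorelSpace (GL (Fin 2) ℂ)]
  (μ : Measure (GL (Fin 2) ℂ)) [μ.IsHaarMeasure]

theorem cL910_fn (a : ℕ → ArchAlg910 μ) (n : ℕ) :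
    (cL910 μ a n).fn = convLg910 μ (fun j => (a j).fn) n := by
  induction n with
  | zero => rfl
  | succ n ih => rw [cL910_succ, ArchAlg910.mul_fn, ih, convLg910_succ]

/-- The left nested products of functions of the class are in the class. -/
theorem isArchFn_convLg910 {Φ : ℕ → GL (Fin 2) ℂ → ℂ} (n : ℕ)
    (hΦ : ∀ j ≤ n, IsArchFn910 (Φ j)) : IsArchFn910 (convLg910 μ Φ n) := by
  have h1 : convLg910 μ Φ n = convLg910 μ (fun j => (mkA910 μ (Φ j)).fn) n :=
    convLg910_congr μ n (fun j hj => (mkA910_fn μ (hΦ j hj)).symm)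
  rw [h1, ← cL910_fn]
  exact (cL910 μ _ n).isArch

/-- **THE PRODUCT RULE**: `convL (Φ ⋆ Ψ) = convL Φ ⋆ convL Ψ` for the functions of the
class. -/
theorem convLg910_mul {Φ Ψ : ℕ → GL (Fin 2) ℂ → ℂ} (n : ℕ)
    (hΦ : ∀ j ≤ n, IsArchFn910 (Φ j)) (hΨ : ∀ j ≤ n, IsArchFn910 (Ψ j)) :
    convLg910 μ (fun j => T6.convInt μ (Φ j) (Ψ j)) n
      = T6.convInt μ (convLg910 μ Φ n) (convLg910 μ Ψ n) := by
  set a : ℕ → ArchAlg910 μ := fun j => mkA910 μ (Φ j) with ha
  set b : ℕ → ArchAlg910 μ := fun j => mkA910 μ (Ψ j) with hb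
  have h1 : convLg910 μ (fun j => T6.convInt μ (Φ j) (Ψ j)) n
      = convLg910 μ (fun j => (a j * b j).fn) n := by
    refine convLg910_congr μ n (fun j hj => ?_)
    rw [ArchAlg910.mul_fn, ha, hb, mkA910_fn μ (hΦ j hj), mkA910_fn μ (hΨ j hj)]
  have h2 : convLg910 μ Φ n = (cL910 μ a n).fn := by
    rw [cL910_fn]
    exact convLg910_congr μ n (fun j hj => (mkA910_fn μ (hΦ j hj)).symm)
  have h3 : convLg910 μ Ψ n = (cL910 μ b n).fn := by
    rw [cL910_fn]
    exact convLg910_congr μ n (fun j hj => (mkA910_fn μ (hΨ j hj)).symm)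
  have h4 : cL910 μ (fun j => a j * b j) n = cL910 μ a n * cL910 μ b n := by
    apply WithOne.coe_injective
    rw [coe_cL910, WithOne.coe_mul, coe_cL910, coe_cL910, ← Finset.prod_mul_distrib]
    rfl
  rw [h1, ← cL910_fn μ (fun j => a j * b j), h4, ArchAlg910.mul_fn, ← h2, ← h3]

/-- **PERMUTATION INVARIANCE**: two enumerations `w`, `w'`, injective on `j < l`, with the same
set of values give the same left nested product. -/
theorem convLg910_enum {ι : Type} (Φ : ι → GL (Fin 2) ℂ → ℂ) (l : ℕ) (hl : 0 < l)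
    (w w' : ℕ → ι) (hw : ∀ j j' : ℕ, j < l → j' < l → w j = w j' → j = j')
    (hw' : ∀ j j' : ℕ, j < l → j' < l → w' j = w' j' → j = j')
    (himg : ∀ j < l, ∃ j' < l, w' j' = w j) (hΦ : ∀ j < l, IsArchFn910 (Φ (w j))) :
    convLg910 μ (fun j => Φ (w j)) (l - 1) = convLg910 μ (fun j => Φ (w' j)) (l - 1) := by
  classical
  have hsub : (Finset.range l).image w ⊆ (Finset.range l).image w' := by
    intro i hi
    obtain ⟨j, hj, rfl⟩ := Finset.mem_image.mp hi
    obtain ⟨j', hj', e⟩ := himg j (Finset.mem_range.mp hj)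
    exact Finset.mem_image.mpr ⟨j', Finset.mem_range.mpr hj', e⟩
  have hcw : ((Finset.range l).image w).card = l := by
    rw [Finset.card_image_of_injOn, Finset.card_range]
    intro j hj j' hj' e
    exact hw j j' (Finset.mem_range.mp hj) (Finset.mem_range.mp hj') e
  have hcw' : ((Finset.range l).image w').card = l := by
    rw [Finset.card_image_of_injOn, Finset.card_range]
    intro j hj j' hj' e
    exact hw' j j' (Finset.mem_range.mp hj) (Finset.mem_range.mp hj') e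
  have himg_eq : (Finset.range l).image w = (Finset.range l).image w' :=
    Finset.eq_of_subset_of_card_le hsub (by rw [hcw, hcw'])
  have hΦ' : ∀ j < l, IsArchFn910 (Φ (w' j)) := by
    intro j hj
    have : w' j ∈ (Finset.range l).image w := by
      rw [himg_eq]
      exact Finset.mem_image.mpr ⟨j, Finset.mem_range.mpr hj, rfl⟩
    obtain ⟨j₀, hj₀, e⟩ := Finset.mem_image.mp this
    rw [← e]
    exact hΦ j₀ (Finset.mem_range.mp hj₀)
  have hl1 : l - 1 + 1 = l := Nat.sub_add_cancel hl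
  set a : ι → ArchAlg910 μ := fun i => mkA910 μ (Φ i) with ha
  have h1 : convLg910 μ (fun j => Φ (w j)) (l - 1) = (cL910 μ (fun j => a (w j)) (l - 1)).fn := by
    rw [cL910_fn]
    exact convLg910_congr μ _ (fun j hj => (mkA910_fn μ (hΦ j (by omega))).symm)
  have h2 : convLg910 μ (fun j => Φ (w' j)) (l - 1)
      = (cL910 μ (fun j => a (w' j)) (l - 1)).fn := by
    rw [cL910_fn]
    exact convLg910_congr μ _ (fun j hj => (mkA910_fn μ (hΦ' j (by omega))).symm)
  have h3 : cL910 μ (fun j => a (w j)) (l - 1) = cL910 μ (fun j => a (w' j)) (l - 1) := by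
    apply WithOne.coe_injective
    rw [coe_cL910, coe_cL910, hl1]
    rw [← Finset.prod_image (s := Finset.range l) (g := w)
        (f := fun i => ((a i : ArchAlg910 μ) : WithOne (ArchAlg910 μ)))
        (fun j hj j' hj' e => hw j j' (Finset.mem_range.mp hj) (Finset.mem_range.mp hj') e),
      ← Finset.prod_image (s := Finset.range l) (g := w')
        (f := fun i => ((a i : ArchAlg910 μ) : WithOne (ArchAlg910 μ)))
        (fun j hj j' hj' e => hw' j j' (Finset.mem_range.mp hj) (Finset.mem_range.mp hj') e),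
      himg_eq]
  rw [h1, h2, h3]

/-- The left nested products of conjugation invariant functions are conjugation invariant. -/
theorem conjInv_convLg910 {Φ : ℕ → GL (Fin 2) ℂ → ℂ} (n : ℕ)
    (hΦ : ∀ j ≤ n, ∀ g : GL (Fin 2) ℂ, Φ j (H305.conjGL305 g) = Φ j g) :
    ∀ g : GL (Fin 2) ℂ, convLg910 μ Φ n (H305.conjGL305 g) = convLg910 μ Φ n g := by
  induction n with
  | zero => exact hΦ 0 le_rfl
  | succ n ih =>
    intro g
    rw [convLg910_succ]
    exact conjInv_convInt_gen910 μ (ih (fun j hj => hΦ j (Nat.le_succ_of_le hj)))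
      (hΦ (n + 1) le_rfl) g

end Gen

/-! ## 8. THE STATEMENTS IN THE FORM OF THE CONSUMERS (`borel`, `H305.convL305`) -/

/-- The Borel structure of `GL₂(ℂ)` is a Borel structure. -/
theorem borelSpace910 : @BorelSpace (GL (Fin 2) ℂ) _ (borel (GL (Fin 2) ℂ)) :=
  @BorelSpace.mk _ _ (borel (GL (Fin 2) ℂ)) rfl

/-- `H305.convL305` is the generic left nested product for the Borel structure. -/
theorem convL305_eq910 (μc : @Measure (GL (Fin 2) ℂ) (borel _))
    (Φ : ℕ → GL (Fin 2) ℂ → ℂ) (n : ℕ) :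
    H305.convL305 μc Φ n = @convLg910 (borel _) μc Φ n := by
  induction n with
  | zero => rfl
  | succ n ih =>
    show @T6.convInt _ _ (borel _) μc (H305.convL305 μc Φ n) (Φ (n + 1))
      = @T6.convInt _ _ (borel _) μc (@convLg910 (borel _) μc Φ n) (Φ (n + 1))
    rw [ih]

/-- **GELFAND (`borel` form)**: the convolution of bi-`U(2)`-invariant functions on `GL₂(ℂ)`
is commutative. -/
theorem convInt_comm910 (μc : @Measure (GL (Fin 2) ℂ) (borel _))
    (hμ : @Measure.IsHaarMeasure _ _ _ (borel _) μc) {Φ Ψ : GL (Fin 2) ℂ → ℂ}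
    (hΦ : IsBiU2_910 Φ) (hΨ : IsBiU2_910 Ψ) :
    @T6.convInt _ _ (borel _) μc Φ Ψ = @T6.convInt _ _ (borel _) μc Ψ Φ :=
  funext fun x => @convInt_comm_gen910 (borel _) borelSpace910 μc hμ Φ Ψ hΦ hΨ x

/-- **ASSOCIATIVITY (`borel` form).** -/
theorem convInt_assoc910 (μc : @Measure (GL (Fin 2) ℂ) (borel _))
    (hμ : @Measure.IsHaarMeasure _ _ _ (borel _) μc) {Φ Ψ Χ : GL (Fin 2) ℂ → ℂ}
    (hΦ : Continuous Φ) (hΦc : HasCompactSupport Φ) (hΨ : Continuous Ψ)
    (hΨc : HasCompactSupport Ψ) (hΧ : Continuous Χ) :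
    @T6.convInt _ _ (borel _) μc (@T6.convInt _ _ (borel _) μc Φ Ψ) Χ
      = @T6.convInt _ _ (borel _) μc Φ (@T6.convInt _ _ (borel _) μc Ψ Χ) :=
  funext fun x => @convInt_assoc_gen910 (borel _) borelSpace910 μc hμ Φ Ψ Χ hΦ hΦc hΨ hΨc hΧ x

/-- **CLOSURE (`borel` form)**: the convolution of two functions of the class is in the
class. -/
theorem isArchFn_convInt910 (μc : @Measure (GL (Fin 2) ℂ) (borel _))
    (hμ : @Measure.IsHaarMeasure _ _ _ (borel _) μc) {Φ Ψ : GL (Fin 2) ℂ → ℂ}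
    (hΦ : IsArchFn910 Φ) (hΨ : IsArchFn910 Ψ) :
    IsArchFn910 (@T6.convInt _ _ (borel _) μc Φ Ψ) :=
  @isArchFn_convInt_gen910 (borel _) borelSpace910 μc hμ Φ Ψ hΦ hΨ

/-- **CONJUGATION (`borel` form).** -/
theorem conjInv_convInt910 (μc : @Measure (GL (Fin 2) ℂ) (borel _))
    (hμ : @Measure.IsHaarMeasure _ _ _ (borel _) μc) {Φ Ψ : GL (Fin 2) ℂ → ℂ}
    (hΦ : ∀ g : GL (Fin 2) ℂ, Φ (H305.conjGL305 g) = Φ g)
    (hΨ : ∀ g : GL (Fin 2) ℂ, Ψ (H305.conjGL305 g) = Ψ g) (g : GL (Fin 2) ℂ) :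
    @T6.convInt _ _ (borel _) μc Φ Ψ (H305.conjGL305 g) = @T6.convInt _ _ (borel _) μc Φ Ψ g :=
  @conjInv_convInt_gen910 (borel _) borelSpace910 μc hμ Φ Ψ hΦ hΨ g

/-- **CLOSURE for `convL305`.** -/
theorem isArchFn_convL305_910 (μc : @Measure (GL (Fin 2) ℂ) (borel _))
    (hμ : @Measure.IsHaarMeasure _ _ _ (borel _) μc) {Φ : ℕ → GL (Fin 2) ℂ → ℂ} (n : ℕ)
    (hΦ : ∀ j ≤ n, IsArchFn910 (Φ j)) : IsArchFn910 (H305.convL305 μc Φ n) := by
  rw [convL305_eq910]
  exact @isArchFn_convLg910 (borel _) borelSpace910 μc hμ Φ n hΦ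

/-- **CONJUGATION for `convL305`.** -/
theorem conjInv_convL305_910 (μc : @Measure (GL (Fin 2) ℂ) (borel _))
    (hμ : @Measure.IsHaarMeasure _ _ _ (borel _) μc) {Φ : ℕ → GL (Fin 2) ℂ → ℂ} (n : ℕ)
    (hΦ : ∀ j ≤ n, ∀ g : GL (Fin 2) ℂ, Φ j (H305.conjGL305 g) = Φ j g) (g : GL (Fin 2) ℂ) :
    H305.convL305 μc Φ n (H305.conjGL305 g) = H305.convL305 μc Φ n g := by
  rw [convL305_eq910]
  exact @conjInv_convLg910 (borel _) borelSpace910 μc hμ Φ n hΦ g

/-- **THE PRODUCT RULE for `convL305`** (the archimedean step of the calculus of pure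
tensors): `convL305 (Φ ⋆ Ψ) = convL305 Φ ⋆ convL305 Ψ`. -/
theorem convL305_mul910 (μc : @Measure (GL (Fin 2) ℂ) (borel _))
    (hμ : @Measure.IsHaarMeasure _ _ _ (borel _) μc) {Φ Ψ : ℕ → GL (Fin 2) ℂ → ℂ} (n : ℕ)
    (hΦ : ∀ j ≤ n, IsArchFn910 (Φ j)) (hΨ : ∀ j ≤ n, IsArchFn910 (Ψ j)) :
    H305.convL305 μc (fun j => @T6.convInt _ _ (borel _) μc (Φ j) (Ψ j)) n
      = @T6.convInt _ _ (borel _) μc (H305.convL305 μc Φ n) (H305.convL305 μc Ψ n) := by
  rw [convL305_eq910, convL305_eq910, convL305_eq910]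
  exact @convLg910_mul (borel _) borelSpace910 μc hμ Φ Ψ n hΦ hΨ

/-- **PERMUTATION INVARIANCE for `convL305`** (the clause `arch` of `H305.LocHyp305` /
`H893.LocHyp893` for ALL enumerations from ONE enumeration): two enumerations `w`, `w'`,
injective on `j < l`, with the same values give the same product. -/
theorem convL305_enum910 (μc : @Measure (GL (Fin 2) ℂ) (borel _))
    (hμ : @Measure.IsHaarMeasure _ _ _ (borel _) μc) {ι : Type}
    (Φ : ι → GL (Fin 2) ℂ → ℂ) (l : ℕ) (hl : 0 < l) (w w' : ℕ → ι)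
    (hw : ∀ j j' : ℕ, j < l → j' < l → w j = w j' → j = j')
    (hw' : ∀ j j' : ℕ, j < l → j' < l → w' j = w' j' → j = j')
    (himg : ∀ j < l, ∃ j' < l, w' j' = w j) (hΦ : ∀ j < l, IsArchFn910 (Φ (w j))) :
    H305.convL305 μc (fun j => Φ (w j)) (l - 1)
      = H305.convL305 μc (fun j => Φ (w' j)) (l - 1) := by
  rw [convL305_eq910, convL305_eq910]
  exact @convLg910_enum (borel _) borelSpace910 μc hμ ι Φ l hl w w' hw hw' himg hΦ

/-! ## 9. The clause `arch` of `H305.LocHyp305` / `H893.LocHyp893` -/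

/-- **THE CLAUSE `arch` FOR ALL ENUMERATIONS FROM ONE.**  Let `w₀ v` enumerate the places of
`K'` over `v` (injective on `j < l`, onto the fibre) and `F v = convL305 μc (Φ ∘ w₀ v) (l - 1)`,
with components `Φ w` in the class.  Then `F v = convL305 μc (Φ ∘ w) (l - 1)` for EVERY
enumeration `w` of places over `v` which is injective on `j < l` (the clause `arch`, verbatim,
for `D.l = l`). -/
theorem arch_of_one910 (μc : @Measure (GL (Fin 2) ℂ) (borel _))
    (hμ : @Measure.IsHaarMeasure _ _ _ (borel _) μc)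
    {K K' : Type} [Field K] [NumberField K] [Field K'] [NumberField K'] [Algebra K K']
    (l : ℕ) (hl : 0 < l)
    (Φ : NumberField.InfinitePlace K' → GL (Fin 2) ℂ → ℂ)
    (F : NumberField.InfinitePlace K → GL (Fin 2) ℂ → ℂ)
    (w₀ : NumberField.InfinitePlace K → ℕ → NumberField.InfinitePlace K')
    (hinj : ∀ (v : NumberField.InfinitePlace K) (j j' : ℕ), j < l → j' < l →
      w₀ v j = w₀ v j' → j = j')
    (honto : ∀ (v : NumberField.InfinitePlace K) (w : NumberField.InfinitePlace K'),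
      w.comap (algebraMap K K') = v → ∃ j < l, w₀ v j = w)
    (hF : ∀ v : NumberField.InfinitePlace K,
      F v = H305.convL305 μc (fun j => Φ (w₀ v j)) (l - 1))
    (hΦ : ∀ w : NumberField.InfinitePlace K', IsArchFn910 (Φ w)) :
    ∀ (v : NumberField.InfinitePlace K) (w : ℕ → NumberField.InfinitePlace K'),
      (∀ j : ℕ, (w j).comap (algebraMap K K') = v) →
      (∀ j j' : ℕ, j < l → j' < l → w j = w j' → j = j') →
      F v = H305.convL305 μc (fun j => Φ (w j)) (l - 1) := by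
  intro v w hov hw
  rw [hF v]
  exact (convL305_enum910 μc hμ Φ l hl w (w₀ v) hw (hinj v)
    (fun j _ => honto v (w j) (hov j)) (fun j _ => hΦ (w j))).symm

/-- **THE CLAUSE `arch` IS MULTIPLICATIVE**: if `F¹ = convL305 (Φ¹ ∘ w)` and
`F² = convL305 (Φ² ∘ w)` with components in the class, then
`F¹ ⋆ F² = convL305 ((Φ¹ ⋆ Φ²) ∘ w)`. -/
theorem arch_mul910 (μc : @Measure (GL (Fin 2) ℂ) (borel _))
    (hμ : @Measure.IsHaarMeasure _ _ _ (borel _) μc) {ι : Type} (l : ℕ)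
    (Φ₁ Φ₂ : ι → GL (Fin 2) ℂ → ℂ) (F₁ F₂ : GL (Fin 2) ℂ → ℂ) (w : ℕ → ι)
    (h₁ : F₁ = H305.convL305 μc (fun j => Φ₁ (w j)) (l - 1))
    (h₂ : F₂ = H305.convL305 μc (fun j => Φ₂ (w j)) (l - 1))
    (hΦ₁ : ∀ j ≤ l - 1, IsArchFn910 (Φ₁ (w j))) (hΦ₂ : ∀ j ≤ l - 1, IsArchFn910 (Φ₂ (w j))) :
    @T6.convInt _ _ (borel _) μc F₁ F₂
      = H305.convL305 μc (fun j => @T6.convInt _ _ (borel _) μc (Φ₁ (w j)) (Φ₂ (w j))) (l - 1) := by
  rw [h₁, h₂]
  exact (convL305_mul910 μc hμ (Φ := fun j => Φ₁ (w j)) (Ψ := fun j => Φ₂ (w j)) (l - 1)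
    hΦ₁ hΦ₂).symm

/-! ## Appendix: the equation lemmas of the definitions of this file are realised HERE -/

theorem eqns_realised_archComm910 : True := by
  have _a1 := @IsBiU2_910.eq_1
  have _a2 := @trGL910.eq_1
  have _a3 := @unitGL910.eq_1
  have _a4 := @trEquiv910.eq_1
  have _a5 := @conjEquiv910.eq_1
  have _a6 := @cL910.eq_1
  have _a7 := @cL910.eq_2
  have _a8 := @cL910.eq_def
  have _a9 := @convLg910.eq_1
  have _a10 := @convLg910.eq_2
  have _a11 := @convLg910.eq_def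
  have _a12 := @mkA910.eq_1
  have _a13 := @instMulArchAlg910.eq_1
  have _a14 := @instCommSemigroupArchAlg910.eq_1
  trivial

end Fermat.Agent.LT.T7.H910

end
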