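import Mathlib
import Fermat.Agent.LT.T7.B981.PairDatSpec
import Fermat.Agent.LT.T7.H910.ArchComm
import Fermat.Agent.LT.T7.H402.GelfandC

/-!
# Row LT, tower T7, node T7.L2.1.H2a.A.0.D.4 `B981.DownArchC981` (helper910): CUT + PROVED TOP

OFF-MAIN.  No hole, nothing assumed.  ADDITIVE (new names only, suffix `910`).  Vocabulary:
the fourth cut of helper981 (`T7/B981/PairDatSpec.lean`), byte-identical copy.

    downArchC_of910 : BinAbelC910 → ArchEnumC910 K K' → B981.DownArchC981 K K'     (VERBATIM)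

## The cut

* **`BinAbelC910`** (LEAF, LOCAL, `GL₂(ℂ)` only, no number field): THE BINARY STEP.  For every
  Haar measure `μc` there is a constant `cμ` such that for smooth test functions `F₁`, `F₂` with
  Abel transforms `β₁`, `β₂` (symmetric bumps): `F₁ ⋆ F₂` is smooth, `β₁ * β₂` (convolution on
  `ℝ²`) is a symmetric bump and `F₁ ⋆ F₂` has the Abel transform `cμ · (β₁ * β₂)`.
* **`ArchEnumC910 K K'`** (LEAF, number theory): over every infinite place of `K` there is an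
  enumeration without repetition of length `ℓ` of places of `K'` which exhausts the fibre.

PROVED HERE (no leaf): continuity, compact support, bi-`U(2)`-invariance of the iterated
convolutions and their independence of the enumeration (the Gelfand pair `(GL₂(ℂ), U(2))`,
`ArchComm.lean`); invariance under the complex conjugation (bi-`U(2)`-invariant functions are
invariant under `g ↦ gᴴ`, helper402, and under transposition); the independence of
`β v` of the enumeration (the Abel transform of a function is UNIQUE: no commutativity on `ℝ²`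
is needed); the induction on the number of factors.

FALSITY CHECK.  `BinAbelC910`: `HasAbelN F β` says `β = S F` in logarithmic coordinates,
`S F (a) = δ(a)^{1/2} ∫_N F(a n) dn` (`∫_ℂ F(upperGL c₁ c₂ x) dx = |c₁|² ∫ F(a n(u)) du`,
`δ(a)^{1/2} = |c₁| / |c₂|`), and `S` is multiplicative on the bi-`U(2)`-invariant functions up
to the constant of `μc` in the Iwasawa coordinates (`G = N A K`).
-/

set_option autoImplicit false
set_option maxHeartbeats 400000

open AutomorphicForm IsDedekindDomain NumberField MeasureTheory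

noncomputable section

namespace Fermat.Agent.LT.T7.H910

open Fermat.Agent.LT Fermat.Agent.LT.H556 Fermat.Agent.LT.H556.A0 Fermat.Agent.LT.T7
open Fermat.Agent.LT.T7.H305 Fermat.Agent.LT.T7.H893

/-! ## 1. The leaves -/

/-- **LEAF DA.1 = THE BINARY STEP (LOCAL, `GL₂(ℂ)`).** -/
def BinAbelC910 : Prop :=
  ∀ μc : @Measure (GL (Fin 2) ℂ) (borel _), @Measure.IsHaarMeasure _ _ _ (borel _) μc →
    ∃ cμ : ℂ, ∀ (F₁ F₂ : GL (Fin 2) ℂ → ℂ) (β₁ β₂ : ℝ × ℝ → ℂ),
      T3.AS.IsSymBump β₁ → T3.AS.IsSymBump β₂ →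
      T3.AS.IsCplxTest F₁ → T3.AS.IsCplxTest F₂ →
      T3.AS.IsCplxSmooth F₁ → T3.AS.IsCplxSmooth F₂ →
      T3.AS.HasAbelN F₁ β₁ → T3.AS.HasAbelN F₂ β₂ →
      T3.AS.IsCplxSmooth (@T6.convInt _ _ (borel _) μc F₁ F₂) ∧
        T3.AS.IsSymBump (fun X : ℝ × ℝ => ∫ t : ℝ × ℝ, β₁ t * β₂ (X - t)) ∧
        T3.AS.HasAbelN (@T6.convInt _ _ (borel _) μc F₁ F₂)
          (cμ • fun X : ℝ × ℝ => ∫ t : ℝ × ℝ, β₁ t * β₂ (X - t))

/-- **LEAF DA.2 = ENUMERATION OF THE FIBRE (number theory).**  `K'/K` Galois of prime degree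
`ℓ`, `K` totally complex: over every infinite place `v` of `K` there are exactly `ℓ` places. -/
def ArchEnumC910 (K K' : Type) [Field K] [NumberField K] [Field K'] [NumberField K']
    [Algebra K K'] : Prop :=
  ∀ ℓ : ℕ, IsCycExt K K' ℓ → ℓ ≠ 2 → TotCplx K →
    ∀ v : InfinitePlace K, ∃ wen : ℕ → InfinitePlace K',
      B981.IsEnum981 ℓ v wen ∧
        ∀ w' : InfinitePlace K', w'.comap (algebraMap K K') = v → ∃ j : ℕ, j < ℓ ∧ wen j = w'

/-! ## 2. Local lemmas -/

theorem isArchFn_of_test910 {F : GL (Fin 2) ℂ → ℂ} (h : T3.AS.IsCplxTest F) : IsArchFn910 F :=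
  ⟨h.cont, h.supp, fun k₁ k₂ g h₁ h₂ => h.bi_inv k₁ k₂ g h₁ h₂⟩

theorem isCplxTest_of_archFn910 {F : GL (Fin 2) ℂ → ℂ} (h : IsArchFn910 F) :
    T3.AS.IsCplxTest F :=
  ⟨h.cont, h.supp, fun k₁ k₂ g h₁ h₂ => h.biInv k₁ k₂ g h₁ h₂⟩

/-- Bi-`U(2)`-invariant functions are invariant under the complex conjugation. -/
theorem IsBiU2_910.conj {Φ : GL (Fin 2) ℂ → ℂ} (h : IsBiU2_910 Φ) (g : GL (Fin 2) ℂ) :
    Φ (H305.conjGL305 g) = Φ g := by
  have e : H305.conjGL305 g = trGL910 (star g) := by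
    apply Units.ext
    ext i j
    simp [conjGL305_val910, Matrix.star_eq_conjTranspose]
  rw [e, h.tr]
  exact H402.biU2_star402 (f := Φ) (fun k₁ k₂ g h₁ h₂ => h k₁ k₂ g h₁ h₂) g

/-- **The Abel transform is unique.** -/
theorem hasAbelN_unique910 {F : GL (Fin 2) ℂ → ℂ} {β β' : ℝ × ℝ → ℂ}
    (h : T3.AS.HasAbelN F β) (h' : T3.AS.HasAbelN F β') : β = β' := by
  funext X
  obtain ⟨s, t⟩ := X
  have hs : (Real.exp s : ℂ) ≠ 0 := by
    exact_mod_cast (Real.exp_pos s).ne'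
  have ht : (Real.exp t : ℂ) ≠ 0 := by
    exact_mod_cast (Real.exp_pos t).ne'
  have h1 := h (Units.mk0 _ hs) (Units.mk0 _ ht)
  have h2 := h' (Units.mk0 _ hs) (Units.mk0 _ ht)
  rw [h1] at h2
  have ns : ‖((Units.mk0 _ hs : ℂˣ) : ℂ)‖ = Real.exp s := by
    rw [Units.val_mk0, Complex.norm_real, Real.norm_eq_abs, abs_of_pos (Real.exp_pos s)]
  have nt : ‖((Units.mk0 _ ht : ℂˣ) : ℂ)‖ = Real.exp t := by
    rw [Units.val_mk0, Complex.norm_real, Real.norm_eq_abs, abs_of_pos (Real.exp_pos t)]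
  rw [ns, nt, Real.log_exp, Real.log_exp] at h2
  have hne : ((Real.exp s * Real.exp t : ℝ) : ℂ) ≠ 0 := by
    exact_mod_cast (mul_pos (Real.exp_pos s) (Real.exp_pos t)).ne'
  exact mul_left_cancel₀ hne h2

theorem convR981_zero910 (β : ℕ → ℝ × ℝ → ℂ) : B981.convR981 β 0 = β 0 := rfl

theorem convR981_succ910 (β : ℕ → ℝ × ℝ → ℂ) (j : ℕ) :
    B981.convR981 β (j + 1)
      = fun X : ℝ × ℝ => ∫ t : ℝ × ℝ, B981.convR981 β j t * β (j + 1) (X - t) := rfl

theorem isSymBump_smul910 {β : ℝ × ℝ → ℂ} (h : T3.AS.IsSymBump β) (c : ℂ) :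
    T3.AS.IsSymBump (c • β) := by
  refine ⟨h.1.const_smul c, h.2.1.smul_left, fun x y => ?_⟩
  simp only [Pi.smul_apply, h.2.2 x y]

/-- **THE INDUCTION**: the iterated convolution has the Abel transform
`cμ ^ n • convR981 β n`. -/
theorem abelConvL910 (μc : @Measure (GL (Fin 2) ℂ) (borel _))
    (hμ : @Measure.IsHaarMeasure _ _ _ (borel _) μc) (cμ : ℂ)
    (hbin : ∀ (F₁ F₂ : GL (Fin 2) ℂ → ℂ) (β₁ β₂ : ℝ × ℝ → ℂ),
      T3.AS.IsSymBump β₁ → T3.AS.IsSymBump β₂ →
      T3.AS.IsCplxTest F₁ → T3.AS.IsCplxTest F₂ →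
      T3.AS.IsCplxSmooth F₁ → T3.AS.IsCplxSmooth F₂ →
      T3.AS.HasAbelN F₁ β₁ → T3.AS.HasAbelN F₂ β₂ →
      T3.AS.IsCplxSmooth (@T6.convInt _ _ (borel _) μc F₁ F₂) ∧
        T3.AS.IsSymBump (fun X : ℝ × ℝ => ∫ t : ℝ × ℝ, β₁ t * β₂ (X - t)) ∧
        T3.AS.HasAbelN (@T6.convInt _ _ (borel _) μc F₁ F₂)
          (cμ • fun X : ℝ × ℝ => ∫ t : ℝ × ℝ, β₁ t * β₂ (X - t)))
    (Φ : ℕ → GL (Fin 2) ℂ → ℂ) (β : ℕ → ℝ × ℝ → ℂ) (n : ℕ)
    (hβ : ∀ j ≤ n, T3.AS.IsSymBump (β j)) (hΦt : ∀ j ≤ n, T3.AS.IsCplxTest (Φ j))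
    (hΦs : ∀ j ≤ n, T3.AS.IsCplxSmooth (Φ j)) (hΦa : ∀ j ≤ n, T3.AS.HasAbelN (Φ j) (β j)) :
    T3.AS.IsCplxTest (H305.convL305 μc Φ n) ∧ T3.AS.IsCplxSmooth (H305.convL305 μc Φ n) ∧
      T3.AS.IsSymBump (cμ ^ n • B981.convR981 β n) ∧
      T3.AS.HasAbelN (H305.convL305 μc Φ n) (cμ ^ n • B981.convR981 β n) := by
  induction n with
  | zero =>
    have e : cμ ^ 0 • B981.convR981 β 0 = β 0 := by
      rw [pow_zero, one_smul, convR981_zero910]
    rw [e]
    exact ⟨hΦt 0 le_rfl, hΦs 0 le_rfl, hβ 0 le_rfl, hΦa 0 le_rfl⟩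
  | succ n ih =>
    obtain ⟨i1, i2, i3, i4⟩ := ih (fun j hj => hβ j (by omega)) (fun j hj => hΦt j (by omega))
      (fun j hj => hΦs j (by omega)) (fun j hj => hΦa j (by omega))
    obtain ⟨b1, b2, b3⟩ := hbin _ _ _ _ i3 (hβ (n + 1) le_rfl) i1 (hΦt (n + 1) le_rfl) i2
      (hΦs (n + 1) le_rfl) i4 (hΦa (n + 1) le_rfl)
    have e : (cμ • fun X : ℝ × ℝ =>
        ∫ t : ℝ × ℝ, (cμ ^ n • B981.convR981 β n) t * β (n + 1) (X - t))
        = cμ ^ (n + 1) • B981.convR981 β (n + 1) := by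
      funext X
      rw [convR981_succ910]
      simp only [Pi.smul_apply, smul_eq_mul]
      rw [← integral_const_mul, ← integral_const_mul]
      refine integral_congr_ae (Filter.Eventually.of_forall fun t => ?_)
      simp only
      ring
    have hT : T3.AS.IsCplxTest (H305.convL305 μc Φ (n + 1)) :=
      isCplxTest_of_archFn910 (isArchFn_convL305_910 μc hμ (n + 1)
        (fun j hj => isArchFn_of_test910 (hΦt j hj)))
    refine ⟨hT, b1, ?_, ?_⟩
    · rw [← e]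
      exact isSymBump_smul910 b2 cμ
    · rw [← e]
      exact b3

/-! ## 3. THE TOP -/

section Top

variable (K K' : Type) [Field K] [NumberField K] [Field K'] [NumberField K'] [Algebra K K']

/-- **TOP: `DownArchC981` from the binary step and the enumeration of the fibres,
VERBATIM.** -/
theorem downArchC_of910 (hB : BinAbelC910) (hE : ArchEnumC910 K K') :
    B981.DownArchC981 K K' := by
  intro ℓ hcyc hℓ2 htc μc hμ
  obtain ⟨cμ, hbin⟩ := hB μc hμ
  refine ⟨cμ, ?_⟩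
  intro D hDl n m φ₀ f₀ Φ β' hβ' hΦt hΦs hΦa
  have hℓ : 0 < ℓ := hcyc.prime.pos
  choose wen hwen using fun v : InfinitePlace K => hE ℓ hcyc hℓ2 htc v
  have key : ∀ w : ℕ → InfinitePlace K',
      T3.AS.IsCplxTest (H305.convL305 μc (fun j => Φ (w j)) (ℓ - 1)) ∧
      T3.AS.IsCplxSmooth (H305.convL305 μc (fun j => Φ (w j)) (ℓ - 1)) ∧
      T3.AS.IsSymBump (cμ ^ (ℓ - 1) • B981.convR981 (fun j => β' (w j)) (ℓ - 1)) ∧
      T3.AS.HasAbelN (H305.convL305 μc (fun j => Φ (w j)) (ℓ - 1))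
        (cμ ^ (ℓ - 1) • B981.convR981 (fun j => β' (w j)) (ℓ - 1)) :=
    fun w => abelConvL910 μc hμ cμ hbin (fun j => Φ (w j)) (fun j => β' (w j)) (ℓ - 1)
      (fun j _ => hβ' (w j)) (fun j _ => hΦt (w j)) (fun j _ => hΦs (w j))
      (fun j _ => hΦa (w j))
  -- independence of the enumeration
  have hind : ∀ (v : InfinitePlace K) (w : ℕ → InfinitePlace K'),
      (∀ j : ℕ, (w j).comap (algebraMap K K') = v) →
      (∀ j j' : ℕ, j < ℓ → j' < ℓ → w j = w j' → j = j') →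
      H305.convL305 μc (fun j => Φ (wen v j)) (ℓ - 1)
        = H305.convL305 μc (fun j => Φ (w j)) (ℓ - 1) := by
    intro v w hov hinj
    exact (convL305_enum910 μc hμ Φ ℓ hℓ w (wen v) hinj (hwen v).1.2
      (fun j _ => (hwen v).2 (w j) (hov j)) (fun j _ => isArchFn_of_test910 (hΦt (w j)))).symm
  refine ⟨fun v => H305.convL305 μc (fun j => Φ (wen v j)) (ℓ - 1),
    fun v => cμ ^ (ℓ - 1) • B981.convR981 (fun j => β' (wen v j)) (ℓ - 1),
    fun v => (key (wen v)).2.2.1, fun v => (key (wen v)).1, fun v => (key (wen v)).2.1,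
    fun v => (key (wen v)).2.2.2, ?_, ?_⟩
  · intro v w hw
    have h1 := (key (wen v)).2.2.2
    have h2 := (key w).2.2.2
    rw [← hind v w hw.1 hw.2] at h2
    exact hasAbelN_unique910 h1 h2
  · refine ⟨?_, fun w k₁ k₂ g h₁ h₂ => (hΦt w).bi_inv k₁ k₂ g h₁ h₂,
      fun v k₁ k₂ g h₁ h₂ => (key (wen v)).1.bi_inv k₁ k₂ g h₁ h₂⟩
    refine
      { inv_up := fun v hv => absurd hv (Finset.notMem_empty v)
        inv_down := fun v hv => absurd hv (Finset.notMem_empty v)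
        arch_up := fun w => ⟨(hΦt w).cont, (hΦt w).supp,
          (isArchFn_of_test910 (hΦt w)).biInv.conj⟩
        arch_down := fun v => ⟨(key (wen v)).1.cont, (key (wen v)).1.supp,
          (isArchFn_of_test910 (key (wen v)).1).biInv.conj⟩
        inert := fun v hv => absurd hv (Finset.notMem_empty v)
        split := fun v hv => absurd hv (Finset.notMem_empty v)
        arch := ?_ }
    intro v w hov hinj
    rw [hDl] at hinj ⊢
    exact hind v w hov hinj

end Top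

/-! ## Appendix: the equation lemmas of the definitions of this file are realised HERE -/

theorem eqns_realised_downArchCut910 : True := by
  have _a1 := @BinAbelC910.eq_1
  have _a2 := @ArchEnumC910.eq_1
  trivial

end Fermat.Agent.LT.T7.H910

end
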